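import Fermat.Agent.FLAT.Defs
import Fermat.Agent.S19.A.Hopf

/-!
# FLAT / [ALG-A] : a Hopf algebra from an order with a basis  (Mathlib only)

`H ⊆ Map(V, L)` a `Λ`-subalgebra with a `Λ`-basis which is `L`-linearly independent, spanning
`Map(V, L)` over `L`, closed under `h ↦ h(x + y)`, `h ↦ h(0)`, `h ↦ h(-x)`.
Then `H` is a finite free cocommutative Hopf algebra over `Λ` and `Hom_{Λ-alg}(H, L) = V`.

Proof sketch.  `ι₂ : H ⊗ H →ₐ (V × V → L)` and `ι₃ : H ⊗ H ⊗ H →ₐ (V × V × V → L)` are injective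
(the images of the tensor bases are `L`-linearly independent: products of independent families).
`comul := ι₂⁻¹ ∘ (h ↦ h ∘ add)` (`AlgEquiv.ofInjective`, `AlgHom.codRestrict`), `counit h := h 0`,
`antipode h := h ∘ neg`; all axioms (`Bialgebra.ofAlgHom`, `HopfAlgebra`) are checked after applying
`ι₂, ι₃` or the inclusion.  `Λ`-algebra homs `H → L` extend to `L`-algebra homs
`L ⊗ H = Map(V, L) → L`, which are evaluations.

The construction itself is the one of `Fermat.Agent.S19.HopfFn` (`S19/A/Hopf.lean`, Mathlib only).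
-/

set_option autoImplicit false

noncomputable section

open scoped TensorProduct

namespace Fermat.Agent.FLAT

open Fermat.Agent.S19.HopfFn in
/-- elements of `box H H` are in the image of `H ⊗ H`. -/
theorem exists_ev2_of_mem_box {Λ L V : Type} [CommRing Λ] [Field L] [Algebra Λ L]
    (H : Subalgebra Λ (V → L)) {F : V × V → L}
    (hF : F ∈ box (Subalgebra.toSubmodule H) (Subalgebra.toSubmodule H)) :
    ∃ t, ev2 H t = F := by
  unfold box at hF
  induction hF using Submodule.span_induction with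
  | mem F hF =>
    obtain ⟨f, hf, g, hg, rfl⟩ := hF
    refine ⟨(⟨f, hf⟩ : H) ⊗ₜ (⟨g, hg⟩ : H), ?_⟩
    ext q
    simp
  | zero => exact ⟨0, map_zero _⟩
  | add F G _ _ hF hG =>
    obtain ⟨s, rfl⟩ := hF
    obtain ⟨t, rfl⟩ := hG
    exact ⟨s + t, map_add _ _ _⟩
  | smul c F _ hF =>
    obtain ⟨s, rfl⟩ := hF
    exact ⟨c • s, map_smul _ _ _⟩

open Fermat.Agent.S19.HopfFn in
/-- **[ALG-A]** -/
theorem exists_hopf_of_basis
    {Λ L : Type} [CommRing Λ] [Field L] [Algebra Λ L]
    (hinj : Function.Injective (algebraMap Λ L))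
    {V : Type} [AddCommGroup V] [Finite V]
    (H : Subalgebra Λ (V → L)) {ι : Type} [Fintype ι] (b : Module.Basis ι Λ H)
    (hbL : LinearIndependent L (fun i => ((b i : H) : V → L)))
    (hspan : Submodule.span L (H : Set (V → L)) = ⊤)
    (hΔ : ComulClosed (Subalgebra.toSubmodule H))
    (hε : ∀ h ∈ H, h 0 ∈ (algebraMap Λ L).range)
    (hS : ∀ h ∈ H, (fun x => h (-x)) ∈ H) :
    ∃ (H' : Type) (_ : CommRing H') (_ : HopfAlgebra Λ H'),
      Module.Finite Λ H' ∧ Module.Flat Λ H' ∧ Coalgebra.IsCocomm Λ H' ∧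
      ∃ (φ : H' → (V → L)) (e : WithConv (H' →ₐ[Λ] L) ≃ V),
        Set.range φ = (H : Set (V → L)) ∧ (∀ f g, e (f * g) = e f + e g) ∧
        ∀ (f : WithConv (H' →ₐ[Λ] L)) (h : H'), f h = φ h (e f) := by
  classical
  -- the basis spans over `L`
  have hspan' : Submodule.span L (Set.range fun i => ((b i : H) : V → L)) = ⊤ := by
    rw [eq_top_iff, ← hspan, Submodule.span_le]
    intro a ha
    have h1 : (⟨a, ha⟩ : H) = ∑ i, b.repr ⟨a, ha⟩ i • b i := (b.sum_repr _).symm
    have h2 : a = ∑ i, (algebraMap Λ L (b.repr ⟨a, ha⟩ i)) • ((b i : H) : V → L) := by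
      have h3 : a = ((∑ i, b.repr ⟨a, ha⟩ i • b i : H) : V → L) :=
        congrArg (Subtype.val : H → (V → L)) h1
      refine h3.trans ?_
      have h4 : ((∑ i, b.repr ⟨a, ha⟩ i • b i : H) : V → L)
          = ∑ i, ((b.repr ⟨a, ha⟩ i • b i : H) : V → L) := by
        exact map_sum H.val _ _
      rw [h4]
      refine Finset.sum_congr rfl fun i _ => ?_
      ext x
      simp [Algebra.smul_def]
    rw [h2]
    exact Submodule.sum_mem _ fun i _ =>
      Submodule.smul_mem _ _ (Submodule.subset_span ⟨i, rfl⟩)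
  have hb2 : LinearIndependent L (fun p => ev2 H (b.tensorProduct b p)) :=
    prodEv_indep H.val H.val b b hbL hbL
  have hb3 : LinearIndependent L (fun p => ev3 H (b.tensorProduct (b.tensorProduct b) p)) :=
    prodEv_indep H.val (ev2 H) b (b.tensorProduct b) hbL hb2
  have h : Hyp H :=
    { inj := hinj
      inj2 := injective_of_basis hinj (b.tensorProduct b) (ev2 H).toLinearMap hb2
      inj3 := injective_of_basis hinj (b.tensorProduct (b.tensorProduct b)) (ev3 H).toLinearMap hb3
      hΔ := fun a => exists_ev2_of_mem_box H (hΔ a.1 a.2)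
      hε := fun a => hε a.1 a.2
      hS := hS }
  let E : V ≃ (H →ₐ[Λ] L) := Equiv.ofBijective (evalAt (H := H) (R := Λ))
    ⟨evalAt_injective H b hspan', evalAt_surjective H b hbL hspan'⟩
  refine ⟨H, inferInstance, hopf h, Module.Finite.of_basis b,
    @Module.Flat.of_free _ _ _ _ _ (Module.Free.of_basis b), isCocomm h, Subtype.val,
    (WithConv.equiv _).trans E.symm, Subtype.range_coe, ?_, ?_⟩
  · intro f g
    obtain ⟨x, rfl⟩ : ∃ x, f = WithConv.toConv (evalAt x) :=
      ⟨E.symm f.ofConv, by apply WithConv.ext; exact (E.apply_symm_apply f.ofConv).symm⟩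
    obtain ⟨y, rfl⟩ : ∃ y, g = WithConv.toConv (evalAt y) :=
      ⟨E.symm g.ofConv, by apply WithConv.ext; exact (E.apply_symm_apply g.ofConv).symm⟩
    rw [← evalAt_add h x y]
    have hE : ∀ z, ((WithConv.equiv _).trans E.symm) (WithConv.toConv (evalAt (H := H) z)) = z :=
      fun z => E.symm_apply_apply z
    rw [hE, hE, hE]
  · intro f a
    have := E.apply_symm_apply f.ofConv
    exact (DFunLike.congr_fun this a).symm

end Fermat.Agent.FLAT
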