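import Fermat.Agent.FLAT.Zl
import Fermat.Agent.FLAT.Alg.Hopf

/-!
# FLAT / [ALG-B] : a Hopf order over `ℤ_(ℓ)` gives a finite flat model

* `linearIndependent_of_equivariant` (Artin/Galois descent): `ℚ`-linearly independent
  `G_ℚ`-equivariant functions are `ℚ̄`-linearly independent (take a shortest relation with one
  coefficient `1`, apply `σ`, subtract; `mem_range_of_fixed`).
* `exists_basis` : `H` is f.g. torsion free over the PID `ℤ_(ℓ)`, hence free; a `ℤ_(ℓ)`-basis is
  `ℚ`-independent (clear denominators), hence `ℚ̄`-independent.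
* `eval_zero_mem` : `h 0` is fixed by `G_ℚ`, hence rational, and integral over `ℤ_(ℓ)` (`H` is a f.g.
  module), hence in `ℤ_(ℓ)` (a PID is integrally closed; or use the basis / Cayley-Hamilton).
* `comp_nsmul_mem` : induction on `m` using `comul` (restrict `box H H` to the graph `x ↦ (m x, x)`).
* `comp_neg_mem` : `-x = (n - 1) x`, `n = Nat.card V`.
-/

set_option autoImplicit false

noncomputable section

namespace Fermat.Agent.FLAT

variable {V : Type} [AddCommGroup V]

theorem act_act_inv_ord (act : GQ →* AddMonoid.End V) (σ : GQ) (x : V) :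
    act σ (act σ⁻¹ x) = x := by
  have h : act σ * act σ⁻¹ = 1 := by rw [← map_mul, mul_inv_cancel, map_one]
  have := congrArg (fun φ : AddMonoid.End V => φ x) h
  simpa using this

theorem linearIndependent_of_equivariant (act : GQ →* AddMonoid.End V) {ι : Type*}
    (f : ι → V → Qb) (hf : ∀ i σ, IsEquiv act σ (f i)) (hQ : LinearIndependent ℚ f) :
    LinearIndependent Qb f := by
  classical
  rw [linearIndependent_iff']
  intro s
  induction s using Finset.induction_on with
  | empty => intro g _ i hi; simp at hi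
  | insert a s has ih =>
    intro g hg
    rw [Finset.sum_insert has] at hg
    have key : g a = 0 := by
      by_contra hga
      set c : ι → Qb := fun i => (g a)⁻¹ * g i with hc
      have hrel : f a + ∑ i ∈ s, c i • f i = 0 := by
        have h1 := congrArg (fun F => (g a)⁻¹ • F) hg
        simp only [smul_add, smul_zero, Finset.smul_sum, smul_smul] at h1
        rw [inv_mul_cancel₀ hga, one_smul] at h1
        exact h1
      have hfix : ∀ i ∈ s, ∀ σ : GQ, σ (c i) = c i := by
        intro i hi σ
        have h0 : ∑ i ∈ s, (σ (c i) - c i) • f i = 0 := by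
          funext y
          have hy : act σ (act σ⁻¹ y) = y := act_act_inv_ord act σ y
          set x := act σ⁻¹ y with hx
          have h1 := congrFun hrel y
          have h2 := congrArg σ (congrFun hrel x)
          simp only [Pi.add_apply, Finset.sum_apply, Pi.smul_apply, smul_eq_mul, Pi.zero_apply,
            map_add, map_sum, map_mul, map_zero] at h1 h2
          have h3 : ∀ j, σ (f j x) = f j y := fun j => by rw [← hf j σ x, hy]
          simp only [h3] at h2
          simp only [Finset.sum_apply, Pi.smul_apply, smul_eq_mul, Pi.zero_apply, sub_mul,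
            Finset.sum_sub_distrib]
          linear_combination h2 - h1
        exact sub_eq_zero.mp (ih _ h0 i hi)
      have hq : ∀ i, ∃ q : ℚ, i ∈ s → algebraMap ℚ Qb q = c i := by
        intro i
        by_cases hi : i ∈ s
        · obtain ⟨q, hq⟩ := mem_range_of_fixed (hfix i hi)
          exact ⟨q, fun _ => hq⟩
        · exact ⟨0, fun h => absurd h hi⟩
      choose q hq using hq
      have h4 := linearIndependent_iff'.mp hQ (insert a s) (fun i => if i = a then 1 else q i) ?_ a
        (Finset.mem_insert_self _ _)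
      · simp at h4
      · rw [Finset.sum_insert has]
        simp only [if_true, one_smul]
        rw [← hrel]
        congr 1
        refine Finset.sum_congr rfl fun i hi => ?_
        have hia : i ≠ a := fun h => has (h ▸ hi)
        rw [if_neg hia, ← hq i hi, algebraMap_smul]
    rw [key, zero_smul, zero_add] at hg
    intro i hi
    rcases Finset.mem_insert.mp hi with rfl | hi
    · exact key
    · exact ih g hg i hi

variable {ℓ : ℕ} [Fact ℓ.Prime] {act : GQ →* AddMonoid.End V} {H : Subalgebra (Zl ℓ) (V → Qb)}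

instance isFractionRing_Zl_ord (ℓ : ℕ) [Fact ℓ.Prime] : IsFractionRing (Zl ℓ) ℚ := by
  refine IsFractionRing.of_field (Zl ℓ) ℚ fun z => ?_
  obtain ⟨n, hn⟩ := exists_pow_mul_mem_Zl ℓ z
  have hl : (ℓ : ℚ) ≠ 0 := by exact_mod_cast (Fact.out : ℓ.Prime).ne_zero
  refine ⟨⟨_, hn⟩, (ℓ : Zl ℓ) ^ n, ?_⟩
  have h1 : algebraMap (Zl ℓ) ℚ ((ℓ : Zl ℓ) ^ n) = (ℓ : ℚ) ^ n := by simp
  rw [h1]
  change z = ((ℓ : ℚ) ^ n * z) / (ℓ : ℚ) ^ n
  field_simp

theorem IsHopfOrder.exists_basis (hH : IsHopfOrder ℓ act H) :
    ∃ (n : ℕ) (b : Module.Basis (Fin n) (Zl ℓ) H),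
      LinearIndependent Qb (fun i => ((b i : H) : V → Qb)) := by
  have : Module.Finite (Zl ℓ) H := by
    have := hH.fg
    exact Module.Finite.iff_fg.mpr this
  have : Module.IsTorsionFree (Zl ℓ) H := by
    refine ⟨fun r hr x y hxy => ?_⟩
    have hr0 : algebraMap (Zl ℓ) Qb r ≠ 0 := by
      intro h0
      have : r = 0 := algebraMap_Zl_injective (by rw [h0, map_zero])
      exact hr.ne_zero this
    apply Subtype.ext
    funext v
    have h1 := congrFun (congrArg Subtype.val hxy) v
    simp only [Algebra.smul_def] at h1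
    exact mul_left_cancel₀ hr0 h1
  obtain ⟨n, b⟩ := Module.basisOfFiniteTypeTorsionFree' (R := Zl ℓ) (M := H)
  refine ⟨n, b, ?_⟩
  apply linearIndependent_of_equivariant act
  · intro i σ
    exact hH.equivariant _ (b i).2 σ
  · rw [← LinearIndependent.iff_fractionRing (Zl ℓ) ℚ]
    have := b.linearIndependent
    exact this.map' (Subalgebra.toSubmodule H).subtype (Submodule.ker_subtype _)

theorem IsHopfOrder.eval_zero_mem (hH : IsHopfOrder ℓ act H) :
    ∀ h ∈ H, h 0 ∈ (algebraMap (Zl ℓ) Qb).range := by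
  intro h hh
  have hfix : ∀ σ : GQ, σ (h 0) = h 0 := by
    intro σ
    rw [← hH.equivariant h hh σ 0, map_zero]
  obtain ⟨q, hq⟩ := mem_range_of_fixed hfix
  have hint : IsIntegral (Zl ℓ) h := IsIntegral.of_mem_of_fg H hH.fg h hh
  have hint0 : IsIntegral (Zl ℓ) (h 0) := hint.map (Pi.evalAlgHom (Zl ℓ) (fun _ : V => Qb) 0)
  rw [← hq, isIntegral_algebraMap_iff (algebraMap ℚ Qb).injective,
    IsIntegrallyClosed.isIntegral_iff] at hint0
  obtain ⟨y, hy⟩ := hint0
  refine ⟨y, ?_⟩
  rw [← hq, ← hy, algebraMap_Zl_apply]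
  rfl

theorem IsHopfOrder.comp_nsmul_mem (hH : IsHopfOrder ℓ act H) (m : ℕ) :
    ∀ h ∈ H, (fun x => h (m • x)) ∈ H := by
  induction m with
  | zero =>
    intro h hh
    obtain ⟨a, ha⟩ := hH.eval_zero_mem h hh
    have : (fun x : V => h (0 • x)) = algebraMap (Zl ℓ) (V → Qb) a := by
      funext x
      rw [zero_smul, ← ha]
      rfl
    rw [this]
    exact H.algebraMap_mem a
  | succ m ih =>
    intro h hh
    have h1 := hH.comul h hh
    set φ : (V × V → Qb) →ₗ[Zl ℓ] (V → Qb) :=
      LinearMap.funLeft (Zl ℓ) Qb (fun x : V => (m • x, x)) with hφ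
    have h2 : box (Subalgebra.toSubmodule H) (Subalgebra.toSubmodule H) ≤
        (Subalgebra.toSubmodule H).comap φ := by
      refine Submodule.span_le.mpr ?_
      rintro F ⟨f, hf, g, hg, rfl⟩
      exact H.mul_mem (ih f hf) hg
    have h3 := h2 h1
    have h4 : φ (fun p : V × V => h (p.1 + p.2)) = fun x => h ((m + 1) • x) := by
      funext x
      simp [hφ, LinearMap.funLeft_apply, succ_nsmul]
    rw [Submodule.mem_comap, h4] at h3
    exact h3

theorem IsHopfOrder.comp_neg_mem [Finite V] (hH : IsHopfOrder ℓ act H) :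
    ∀ h ∈ H, (fun x => h (-x)) ∈ H := by
  intro h hh
  have h1 := hH.comp_nsmul_mem (Nat.card V - 1) h hh
  have h2 : ∀ x : V, (Nat.card V - 1) • x = -x := by
    intro x
    have hpos : 0 < Nat.card V := Nat.card_pos
    have h3 : (Nat.card V - 1 + 1) • x = 0 := by
      rw [Nat.sub_add_cancel hpos]
      exact card_nsmul_eq_zero'
    rw [succ_nsmul] at h3
    exact eq_neg_of_add_eq_zero_left h3
  simpa only [h2] using h1

/-- **[ALG]** a Hopf order gives a finite flat model. -/
theorem hasFlatModel_of_isHopfOrder [Finite V] (hH : IsHopfOrder ℓ act H) :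
    HasFlatModel ℓ V act := by
  classical
  obtain ⟨n, b, hb⟩ := hH.exists_basis
  obtain ⟨H', i1, i2, hfin, hflat, hcc, φ, e, hφ, hadd, hev⟩ :=
    exists_hopf_of_basis (Λ := Zl ℓ) (L := Qb) algebraMap_Zl_injective H b hb hH.span_top hH.comul
      hH.eval_zero_mem hH.comp_neg_mem
  refine ⟨H', i1, i2, hfin, hflat, hcc, e, hadd, ?_⟩
  intro σ f g hfg
  have h1 : ∀ k ∈ H, k (e g) = k (act σ (e f)) := by
    intro k hk
    have hk' : k ∈ Set.range φ := by rw [hφ]; exact hk
    obtain ⟨h, rfl⟩ := hk'
    rw [← hev g h, hfg h, hev f h]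
    exact (hH.equivariant _ hk σ (e f)).symm
  set S : Submodule Qb (V → Qb) :=
    LinearMap.ker (LinearMap.proj (R := Qb) (φ := fun _ : V => Qb) (e g)
      - LinearMap.proj (R := Qb) (φ := fun _ : V => Qb) (act σ (e f))) with hS
  have h2 : Submodule.span Qb (H : Set (V → Qb)) ≤ S := by
    refine Submodule.span_le.mpr fun k hk => ?_
    simp only [hS, SetLike.mem_coe, LinearMap.mem_ker, LinearMap.sub_apply, LinearMap.proj_apply]
    exact sub_eq_zero.mpr (h1 k hk)
  rw [hH.span_top] at h2
  have h3 : (Pi.single (e g) (1 : Qb) : V → Qb) ∈ S := h2 trivial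
  simp only [hS, LinearMap.mem_ker, LinearMap.sub_apply, LinearMap.proj_apply,
    Pi.single_eq_same] at h3
  by_contra hne
  rw [Pi.single_eq_of_ne (fun h => hne h.symm)] at h3
  simp at h3

end Fermat.Agent.FLAT
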